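/-
JT3 (Jacobian tower), node H0: **Kronecker's congruence** for the modular polynomial of prime
level `ℓ`, as pure `q`-series algebra on top of the S28 libraries.

* `kc_hnfInf`, `kc_hnfFin`, `kc_hnfEquiv`, `kc_prod_hnf` : the Hermite index set `hnf_I ℓ` of prime
  level is `{(ℓ,0,1)} ∪ {(1,b,ℓ) : b < ℓ}`;
* `kc_qExpand_jq` : `j(q^ℓ) = j(q)^ℓ` in `k((q))` for a ring `k` of characteristic `ℓ`;
* `kc_kronecker` : if `Φ ∈ R[J][X]` satisfies `Φ(X, j(t^ℓ)) = ∏ (X - y_x)` over the `ℓ + 1` formal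
  conjugates `y_x` of `j(ℓ z)` (`t = q^(1/ℓ)`), then for every ring hom `ρ : R → k` into a field of
  characteristic `ℓ` the image of `Φ` in `k[J][X]` is `(X - J^ℓ) (X^ℓ - J)`.
Prefix `kc_`.
-/
import Mathlib
import Fermat.Agent.S28.Core.Norm
import Fermat.Agent.S28.Comb.HNFIndex

set_option autoImplicit false

noncomputable section

open ModularCurve Polynomial Finset
open Fermat.Agent.S28

namespace Fermat.Agent.JT

/-! ### (K1) the Hermite index set of prime level -/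

section hnf

variable (ℓ : ℕ)

/-- the Hermite form `(ℓ, 0, 1)` (the conjugate `j(ℓ z)`) -/
def kc_hnfInf : hnf_I ℓ := ⟨ℓ, 0, 1, mul_one ℓ, Nat.zero_lt_one, by simp⟩

/-- the Hermite forms `(1, b, ℓ)` (the conjugates `j((z + b)/ℓ)`) -/
def kc_hnfFin (b : Fin ℓ) : hnf_I ℓ := ⟨1, b, ℓ, one_mul ℓ, b.2, by simp⟩

@[simp] theorem kc_hnfInf_a : (kc_hnfInf ℓ).a = ℓ := rfl
@[simp] theorem kc_hnfInf_b : (kc_hnfInf ℓ).b = 0 := rfl
@[simp] theorem kc_hnfInf_d : (kc_hnfInf ℓ).d = 1 := rfl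
@[simp] theorem kc_hnfFin_a (b : Fin ℓ) : (kc_hnfFin ℓ b).a = 1 := rfl
@[simp] theorem kc_hnfFin_b (b : Fin ℓ) : (kc_hnfFin ℓ b).b = b := rfl
@[simp] theorem kc_hnfFin_d (b : Fin ℓ) : (kc_hnfFin ℓ b).d = ℓ := rfl

variable {ℓ}

theorem kc_hnf_cases (hℓ : ℓ.Prime) (x : hnf_I ℓ) :
    x = kc_hnfInf ℓ ∨ ∃ b : Fin ℓ, x = kc_hnfFin ℓ b := by
  rcases (Nat.dvd_prime hℓ).1 x.a_dvd with h | h
  · right
    have hd : x.d = ℓ := by
      have := x.had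
      rw [h, one_mul] at this
      exact this
    exact ⟨⟨x.b, lt_of_lt_of_eq x.hbd hd⟩, hnf_I.ext h rfl hd⟩
  · left
    have hd : x.d = 1 := by
      have h1 := x.had
      rw [h] at h1
      exact Nat.eq_of_mul_eq_mul_left hℓ.pos (h1.trans (mul_one ℓ).symm)
    have hb : x.b = 0 := by
      have := x.hbd
      rw [hd] at this
      omega
    exact hnf_I.ext h hb hd

/-- `hnf_I ℓ = {(ℓ,0,1)} ⊔ {(1,b,ℓ)}` for `ℓ` prime. -/
def kc_hnfEquiv (hℓ : ℓ.Prime) : Option (Fin ℓ) ≃ hnf_I ℓ :=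
  Equiv.ofBijective (fun o => o.elim (kc_hnfInf ℓ) (kc_hnfFin ℓ)) (by
    constructor
    · rintro (_ | b) (_ | b') h
      · rfl
      · exfalso
        have := congrArg hnf_I.a h
        simp only [Option.elim, kc_hnfInf_a, kc_hnfFin_a] at this
        exact hℓ.one_lt.ne' this
      · exfalso
        have := congrArg hnf_I.a h
        simp only [Option.elim, kc_hnfInf_a, kc_hnfFin_a] at this
        exact hℓ.one_lt.ne' this.symm
      · have := congrArg hnf_I.b h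
        simp only [Option.elim, kc_hnfFin_b] at this
        rw [Fin.ext this]
    · intro x
      rcases kc_hnf_cases hℓ x with rfl | ⟨b, rfl⟩
      · exact ⟨none, rfl⟩
      · exact ⟨some b, rfl⟩)

@[simp] theorem kc_hnfEquiv_none (hℓ : ℓ.Prime) : kc_hnfEquiv hℓ none = kc_hnfInf ℓ := rfl

@[simp] theorem kc_hnfEquiv_some (hℓ : ℓ.Prime) (b : Fin ℓ) :
    kc_hnfEquiv hℓ (some b) = kc_hnfFin ℓ b := rfl

theorem kc_prod_hnf [NeZero ℓ] (hℓ : ℓ.Prime) {M : Type*} [CommMonoid M] (f : hnf_I ℓ → M) :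
    ∏ x : hnf_I ℓ, f x = f (kc_hnfInf ℓ) * ∏ b : Fin ℓ, f (kc_hnfFin ℓ b) := by
  rw [← (kc_hnfEquiv hℓ).prod_comp f, Fintype.prod_option]
  rfl

theorem kc_card_hnf [NeZero ℓ] (hℓ : ℓ.Prime) : Fintype.card (hnf_I ℓ) = ℓ + 1 := by
  rw [← Fintype.card_congr (kc_hnfEquiv hℓ), Fintype.card_option, Fintype.card_fin]

end hnf

/-! ### (K2) Frobenius on `q`-expansions with prime-field coefficients -/

section frob

variable {k : Type*} [CommRing k]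

theorem kc_ofPowerSeries_expand (p : ℕ) [NeZero p] (P : PowerSeries k) :
    HahnSeries.ofPowerSeries ℤ k (P.expand p (NeZero.ne p)) =
      qExpand k p (HahnSeries.ofPowerSeries ℤ k P) := by
  have hp : (0 : ℤ) < p := by exact_mod_cast Nat.pos_of_ne_zero (NeZero.ne p)
  ext n
  by_cases hn : (p : ℤ) ∣ n
  · obtain ⟨m, rfl⟩ := hn
    rw [qExpand_coeff_mul]
    rcases le_or_gt 0 m with hm | hm
    · lift m to ℕ using hm
      rw [HahnSeries.ofPowerSeries_apply_coeff]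
      have : (p : ℤ) * (m : ℤ) = ((p * m : ℕ) : ℤ) := by push_cast; ring
      rw [this, HahnSeries.ofPowerSeries_apply_coeff, PowerSeries.coeff_expand_mul]
    · rw [ofPowerSeries_coeff_of_neg _ hm,
        ofPowerSeries_coeff_of_neg _ (mul_neg_of_pos_of_neg hp hm)]
  · rw [qExpand_coeff_of_not_dvd p _ hn]
    rcases le_or_gt 0 n with h0 | h0
    · lift n to ℕ using h0
      rw [HahnSeries.ofPowerSeries_apply_coeff, PowerSeries.coeff_expand_of_not_dvd]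
      exact fun h => hn (by exact_mod_cast h)
    · rw [ofPowerSeries_coeff_of_neg _ h0]

theorem kc_expand_eq_pow {ℓ : ℕ} (hℓ : ℓ.Prime) [CharP k ℓ] (P : PowerSeries ℤ) :
    (P.map (Int.castRingHom k)).expand ℓ hℓ.ne_zero = (P.map (Int.castRingHom k)) ^ ℓ := by
  have : Fact ℓ.Prime := ⟨hℓ⟩
  have : ExpChar k ℓ := ExpChar.prime hℓ
  have h := MvPowerSeries.map_frobenius_expand (σ := Unit) ℓ hℓ.ne_zero
    (f := P.map (Int.castRingHom k))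
  rw [← h]
  change _ = PowerSeries.map (frobenius k ℓ) ((P.map (Int.castRingHom k)).expand ℓ hℓ.ne_zero)
  rw [PowerSeries.map_expand, fs_map_map_intCast]

/-- `j(q^ℓ) = j(q)^ℓ` in characteristic `ℓ`. -/
theorem kc_qExpand_jq {ℓ : ℕ} [NeZero ℓ] (hℓ : ℓ.Prime) [CharP k ℓ] :
    qExpand k ℓ (jqModC k) = jqModC k ^ ℓ := by
  have h1 : qExpand k ℓ (HahnSeries.ofPowerSeries ℤ k (jNum.map (Int.castRingHom k))) =
      (HahnSeries.ofPowerSeries ℤ k (jNum.map (Int.castRingHom k))) ^ ℓ := by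
    rw [← kc_ofPowerSeries_expand, kc_expand_eq_pow (k := k) hℓ jNum, map_pow]
  have h2 : qExpand k ℓ (HahnSeries.single (-1 : ℤ) (1 : k)) =
      (HahnSeries.single (-1 : ℤ) (1 : k)) ^ ℓ := by
    rw [qExpand_single, HahnSeries.single_pow, one_pow, nsmul_eq_mul]
  rw [jqModC, map_mul, mul_pow, h1, h2]

/-- `j(t^(ℓ n)) = j(t^n)^ℓ` in characteristic `ℓ`. -/
theorem kc_qExpand_mul_jq {ℓ : ℕ} [NeZero ℓ] (hℓ : ℓ.Prime) [CharP k ℓ] (n : ℕ) [NeZero n] :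
    qExpand k (n * ℓ) (jqModC k) = qExpand k n (jqModC k) ^ ℓ := by
  rw [← qExpand_qExpand, kc_qExpand_jq hℓ, map_pow]

end frob

/-! ### (K3) Kronecker's congruence -/

section main

variable {R : Type*} [CommRing R] {ℓ : ℕ} [NeZero ℓ]

theorem kc_charP_laurent (k : Type*) [Field k] (ℓ : ℕ) [CharP k ℓ] : CharP (LaurentSeries k) ℓ :=
  charP_of_injective_ringHom (f := (HahnSeries.C : k →+* LaurentSeries k))
    HahnSeries.C_injective ℓ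

/-- the conjugate `j(ℓ z)` after reduction: `j(t^(ℓ^2)) = j(t^ℓ)^ℓ` -/
theorem kc_jm_inf {k : Type*} [Field k] [CharP k ℓ] (hℓ : ℓ.Prime) :
    fs_jm (1 : kˣ) ℓ ℓ 0 1 = fs_jT k ℓ ^ ℓ := by
  rw [nm_jm_eq (1 : kˣ) 0 (mul_one ℓ), one_pow, fs_y_one, fs_jT]
  rw [← kc_qExpand_mul_jq hℓ ℓ]
  exact qExpand_congr (sq ℓ) _

/-- the conjugates `j((z + b)/ℓ)` after reduction: `j(t)`, with `j(t)^ℓ = j(t^ℓ)` -/
theorem kc_jm_fin {k : Type*} [Field k] (b : ℕ) :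
    fs_jm (1 : kˣ) ℓ 1 b ℓ = jqModC k := by
  rw [nm_jm_eq (1 : kˣ) b (one_mul ℓ), one_pow, fs_y_one]
  rw [qExpand_congr (one_pow 2) (jqModC k), qExpand_one_apply]

omit [NeZero ℓ] in
theorem kc_map_zeta_eq_one (hℓ : ℓ.Prime) (ζ : Rˣ) (hζ : ζ ^ ℓ = 1) {k : Type*} [Field k]
    [CharP k ℓ] (ρ : R →+* k) : Units.map (ρ : R →* k) ζ = 1 := by
  have : Fact ℓ.Prime := ⟨hℓ⟩
  apply Units.ext
  have h1 : (ρ (ζ : R)) ^ ℓ = 1 := by
    rw [← map_pow, ← Units.val_pow_eq_pow_val, hζ, Units.val_one, map_one]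
  have h2 : (ρ (ζ : R) - 1) ^ ℓ = 0 := by
    rw [sub_pow_char, h1, one_pow, sub_self]
  have h3 : ρ (ζ : R) - 1 = 0 := pow_eq_zero_iff hℓ.ne_zero |>.1 h2
  show ρ (ζ : R) = 1
  exact sub_eq_zero.1 h3

/-- the image of the product of the conjugates under reduction -/
theorem kc_prod_map (hℓ : ℓ.Prime) (ζ : Rˣ) (hζ : ζ ^ ℓ = 1)
    {k : Type*} [Field k] [CharP k ℓ] (ρ : R →+* k) :
    (∏ x : hnf_I ℓ, ((X : Polynomial (LaurentSeries R)) -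
        Polynomial.C (fs_jm ζ ℓ (hnf_A x ℓ) (hnf_B x ℓ) (ℓ / hnf_A x ℓ)))).map (coeffMap ρ) =
      (X - Polynomial.C (fs_jT k ℓ ^ ℓ)) * (X ^ ℓ - Polynomial.C (fs_jT k ℓ)) := by
  have : Fact ℓ.Prime := ⟨hℓ⟩
  have : CharP (LaurentSeries k) ℓ := kc_charP_laurent k ℓ
  have hℓ0 : ℓ ≠ 0 := hℓ.ne_zero
  rw [Polynomial.map_prod, kc_prod_hnf hℓ]
  have hA1 : hnf_A (kc_hnfInf ℓ) ℓ = ℓ := by rw [hnf_A_self hℓ0]; rfl
  have hB1 : hnf_B (kc_hnfInf ℓ) ℓ = 0 := by rw [hnf_B_self hℓ0]; rfl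
  have hA2 : ∀ b : Fin ℓ, hnf_A (kc_hnfFin ℓ b) ℓ = 1 := fun b => by
    rw [hnf_A_self hℓ0]; rfl
  have hB2 : ∀ b : Fin ℓ, hnf_B (kc_hnfFin ℓ b) ℓ = b := fun b => by
    rw [hnf_B_self hℓ0]; rfl
  have hζ1 := kc_map_zeta_eq_one hℓ ζ hζ ρ
  have hinf : ((X : Polynomial (LaurentSeries R)) -
      Polynomial.C (fs_jm ζ ℓ (hnf_A (kc_hnfInf ℓ) ℓ) (hnf_B (kc_hnfInf ℓ) ℓ)
      (ℓ / hnf_A (kc_hnfInf ℓ) ℓ))).map (coeffMap ρ) = X - Polynomial.C (fs_jT k ℓ ^ ℓ) := by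
    rw [hA1, hB1, Nat.div_self hℓ.pos, Polynomial.map_sub, Polynomial.map_X, Polynomial.map_C,
      fs_coeffMap_jm, hζ1, kc_jm_inf hℓ]
  have hfin : ∀ b : Fin ℓ, ((X : Polynomial (LaurentSeries R)) -
      Polynomial.C (fs_jm ζ ℓ (hnf_A (kc_hnfFin ℓ b) ℓ) (hnf_B (kc_hnfFin ℓ b) ℓ)
      (ℓ / hnf_A (kc_hnfFin ℓ b) ℓ))).map (coeffMap ρ) = X - Polynomial.C (jqModC k) := fun b => by
    rw [hA2, hB2, Nat.div_one, Polynomial.map_sub, Polynomial.map_X, Polynomial.map_C,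
      fs_coeffMap_jm, hζ1, kc_jm_fin]
  rw [hinf, Finset.prod_congr rfl fun b _ => hfin b, Finset.prod_const, Finset.card_univ,
    Fintype.card_fin, sub_pow_char, ← Polynomial.C_pow, ← kc_qExpand_jq hℓ]
  rfl

/-- **Kronecker's congruence** `Φ_ℓ(X, J) ≡ (X - J^ℓ)(X^ℓ - J) mod ℓ`. -/
theorem kc_kronecker (hℓ : ℓ.Prime) (ζ : Rˣ) (hζ : ζ ^ ℓ = 1) (Φ : Polynomial (Polynomial R))
    (hΦ : Φ.map (fs_evalJ R ℓ) = ∏ x : hnf_I ℓ,
      (X - Polynomial.C (fs_jm ζ ℓ (hnf_A x ℓ) (hnf_B x ℓ) (ℓ / hnf_A x ℓ))))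
    {k : Type*} [Field k] [CharP k ℓ] (ρ : R →+* k) :
    Φ.map (Polynomial.mapRingHom ρ) =
      (X - Polynomial.C (X ^ ℓ)) * (X ^ ℓ - Polynomial.C X) := by
  apply Polynomial.map_injective (fs_evalJ k ℓ) nm_evalJ_injective
  rw [fs_map_map_evalJ, hΦ, kc_prod_map hℓ ζ hζ ρ]
  have hX : fs_evalJ k ℓ X = fs_jT k ℓ := by
    rw [fs_evalJ, coe_eval₂RingHom, eval₂_X]
  rw [Polynomial.map_mul, Polynomial.map_sub, Polynomial.map_sub, Polynomial.map_pow,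
    Polynomial.map_X, Polynomial.map_C, Polynomial.map_C, hX]
  simp only [map_pow, hX]

end main

end Fermat.Agent.JT
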