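/-
JT3, node H0 (continued): the modular polynomial `Φ_ℓ` of prime level over a subring `R ⊆ ℂ`
containing `ζ_ℓ` (NO `1/ℓ` needed), its two tautological roots, compatibility in `R`, and
Kronecker's congruence for it.  Prefix `kc_`.
-/
import Mathlib
import Fermat.Agent.JT.Kronecker
import Fermat.Agent.S28.Sym.Datum

set_option autoImplicit false

noncomputable section

open ModularCurve Polynomial Finset
open Fermat.Agent.S24 Fermat.Agent.S28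

namespace Fermat.Agent.JT

/-! ### the two tautological roots, abstractly -/

section roots

variable {R : Type*} [CommRing R] {ℓ : ℕ} [NeZero ℓ]

/-- evaluation `R[J] → R((q))`, `J ↦ j(q)` -/
def kc_evalq (R : Type*) [CommRing R] : Polynomial R →+* LaurentSeries R :=
  Polynomial.eval₂RingHom HahnSeries.C (jqModC R)

@[simp] theorem kc_evalq_C (r : R) : kc_evalq R (Polynomial.C r) = HahnSeries.C r := by
  rw [kc_evalq, coe_eval₂RingHom, eval₂_C]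

@[simp] theorem kc_evalq_X : kc_evalq R X = jqModC R := by
  rw [kc_evalq, coe_eval₂RingHom, eval₂_X]

theorem kc_qExpand_comp_evalq : (qExpand R ℓ).comp (kc_evalq R) = fs_evalJ R ℓ := by
  refine Polynomial.ringHom_ext (fun r => ?_) ?_
  · rw [RingHom.comp_apply, kc_evalq_C, qExpand_C, fs_evalJ, coe_eval₂RingHom, eval₂_C]
  · rw [RingHom.comp_apply, kc_evalq_X, fs_evalJ, coe_eval₂RingHom, eval₂_X, fs_jT]

variable (ζ : Rˣ) (Φ : Polynomial (Polynomial R))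
  (hΦ : Φ.map (fs_evalJ R ℓ) = ∏ x : hnf_I ℓ,
    (X - Polynomial.C (fs_jm ζ ℓ (hnf_A x ℓ) (hnf_B x ℓ) (ℓ / hnf_A x ℓ))))

include hΦ

/-- `Φ_ℓ(j(t), j(t^ℓ)) = 0`, `t = q^(1/ℓ)`: the root `j(z/ℓ)`. -/
theorem kc_root_alpha : (Φ.map (fs_evalJ R ℓ)).eval (jqModC R) = 0 := by
  have hℓ0 : ℓ ≠ 0 := NeZero.ne ℓ
  let x₀ : hnf_I ℓ := kc_hnfFin ℓ ⟨0, Nat.pos_of_ne_zero hℓ0⟩
  have hA : hnf_A x₀ ℓ = 1 := by rw [hnf_A_self hℓ0]; rfl
  have hB : hnf_B x₀ ℓ = 0 := by rw [hnf_B_self hℓ0]; rfl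
  rw [hΦ, Polynomial.eval_prod]
  refine Finset.prod_eq_zero (Finset.mem_univ x₀) ?_
  rw [hA, hB, Nat.div_one, Polynomial.eval_sub, Polynomial.eval_X, Polynomial.eval_C,
    nm_jm_eq ζ 0 (one_mul ℓ), mul_zero, pow_zero, fs_y_one,
    qExpand_congr (one_pow 2) (jqModC R), qExpand_one_apply, sub_self]

/-- `Φ_ℓ(j(t^(ℓ^2)), j(t^ℓ)) = 0`, `t = q^(1/ℓ)`: the root `j(ℓ z)`, in the `t`-variable. -/
theorem kc_root_beta_t :
    (Φ.map (fs_evalJ R ℓ)).eval (qExpand R (ℓ * ℓ) (jqModC R)) = 0 := by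
  have hℓ0 : ℓ ≠ 0 := NeZero.ne ℓ
  have hA : hnf_A (kc_hnfInf ℓ) ℓ = ℓ := by rw [hnf_A_self hℓ0]; rfl
  have hB : hnf_B (kc_hnfInf ℓ) ℓ = 0 := by rw [hnf_B_self hℓ0]; rfl
  rw [hΦ, Polynomial.eval_prod]
  refine Finset.prod_eq_zero (Finset.mem_univ (kc_hnfInf ℓ)) ?_
  rw [hA, hB, Nat.div_self (Nat.pos_of_ne_zero hℓ0), Polynomial.eval_sub, Polynomial.eval_X,
    Polynomial.eval_C, nm_jm_eq ζ 0 (mul_one ℓ), mul_zero, pow_zero, fs_y_one,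
    qExpand_congr (sq ℓ) (jqModC R), sub_self]

/-- `Φ_ℓ(j(q^ℓ), j(q)) = 0` in `R((q))`. -/
theorem kc_root_beta : (Φ.map (kc_evalq R)).eval (qExpand R ℓ (jqModC R)) = 0 := by
  apply qExpand_injective (R := R) ℓ
  rw [map_zero, ← Polynomial.eval₂_hom, ← Polynomial.eval_map, Polynomial.map_map,
    kc_qExpand_comp_evalq, qExpand_qExpand]
  exact kc_root_beta_t ζ Φ hΦ

end roots

/-! ### the modular polynomial over a subring of `ℂ` -/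

section Phi

variable (ℓ : ℕ) [NeZero ℓ] (R : Subring ℂ) (hζ : fi_zeta ℓ ∈ R)

/-- **The modular polynomial `Φ_ℓ ∈ R[J][X]`** (outer variable `X`: the conjugates of `j(ℓ z)`). -/
def kc_Phi : Polynomial (Polynomial R) := Classical.choose (sy_exists_Phi ℓ R hζ)

theorem kc_Phi_monic : (kc_Phi ℓ R hζ).Monic :=
  (Classical.choose_spec (sy_exists_Phi ℓ R hζ)).1

theorem kc_Phi_natDegree_card : (kc_Phi ℓ R hζ).natDegree = Fintype.card (hnf_I ℓ) :=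
  (Classical.choose_spec (sy_exists_Phi ℓ R hζ)).2.1

theorem kc_Phi_natDegree (hℓ : ℓ.Prime) : (kc_Phi ℓ R hζ).natDegree = ℓ + 1 := by
  rw [kc_Phi_natDegree_card, kc_card_hnf hℓ]

theorem kc_Phi_map_evalJ : (kc_Phi ℓ R hζ).map (fs_evalJ R ℓ) = ∏ x : hnf_I ℓ,
    (X - Polynomial.C (fs_jm (sy_zetaU ℓ R hζ) ℓ (hnf_A x ℓ) (hnf_B x ℓ) (ℓ / hnf_A x ℓ))) :=
  (Classical.choose_spec (sy_exists_Phi ℓ R hζ)).2.2.1

theorem kc_Phi_map_complex :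
    ((kc_Phi ℓ R hζ).map (Polynomial.mapRingHom R.subtype)).map (fs_evalJ ℂ ℓ) =
      ∏ x : hnf_I ℓ,
        (X - Polynomial.C (fs_jm (tx_zeta ℓ) ℓ (hnf_A x ℓ) (hnf_B x ℓ) (ℓ / hnf_A x ℓ))) :=
  (Classical.choose_spec (sy_exists_Phi ℓ R hζ)).2.2.2

theorem kc_zetaU_pow : sy_zetaU ℓ R hζ ^ ℓ = 1 :=
  (sy_zetaU_isPrimitiveRoot ℓ R hζ).pow_eq_one

/-- `Φ_ℓ(j(q^ℓ), j(q)) = 0`. -/
theorem kc_Phi_root_beta :
    ((kc_Phi ℓ R hζ).map (kc_evalq R)).eval (qExpand R ℓ (jqModC R)) = 0 :=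
  kc_root_beta (sy_zetaU ℓ R hζ) _ (kc_Phi_map_evalJ ℓ R hζ)

/-- `Φ_ℓ(j(t), j(t^ℓ)) = 0`. -/
theorem kc_Phi_root_alpha :
    ((kc_Phi ℓ R hζ).map (fs_evalJ R ℓ)).eval (jqModC R) = 0 :=
  kc_root_alpha (sy_zetaU ℓ R hζ) _ (kc_Phi_map_evalJ ℓ R hζ)

/-- **Kronecker's congruence for `Φ_ℓ`**: its image in `k[J][X]` under any ring hom from `R` to a
field `k` of characteristic `ℓ` is `(X - J^ℓ)(X^ℓ - J)`. -/
theorem kc_Phi_kronecker (hℓ : ℓ.Prime) {k : Type*} [Field k] [CharP k ℓ] (ρ : R →+* k) :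
    (kc_Phi ℓ R hζ).map (Polynomial.mapRingHom ρ) =
      (X - Polynomial.C (X ^ ℓ)) * (X ^ ℓ - Polynomial.C X) :=
  kc_kronecker hℓ (sy_zetaU ℓ R hζ) (kc_zetaU_pow ℓ R hζ) _ (kc_Phi_map_evalJ ℓ R hζ) ρ

/-- `Φ_ℓ` does not depend on the coefficient ring. -/
theorem kc_Phi_compat {R R' : Subring ℂ} (h : R ≤ R') (hζ : fi_zeta ℓ ∈ R) :
    (kc_Phi ℓ R hζ).map (Polynomial.mapRingHom (Subring.inclusion h)) = kc_Phi ℓ R' (h hζ) := by
  have hinj : Function.Injective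
      (Polynomial.map (Polynomial.mapRingHom R'.subtype) :
        Polynomial (Polynomial R') → Polynomial (Polynomial ℂ)) :=
    Polynomial.map_injective _ (Polynomial.map_injective _ Subtype.val_injective)
  apply hinj
  apply Polynomial.map_injective (fs_evalJ ℂ ℓ) nm_evalJ_injective
  have e : ((kc_Phi ℓ R hζ).map (Polynomial.mapRingHom (Subring.inclusion h))).map
      (Polynomial.mapRingHom R'.subtype) = (kc_Phi ℓ R hζ).map (Polynomial.mapRingHom R.subtype) := by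
    rw [Polynomial.map_map]
    congr 1
    refine RingHom.ext fun q => ?_
    rw [RingHom.comp_apply, Polynomial.coe_mapRingHom, Polynomial.coe_mapRingHom,
      Polynomial.coe_mapRingHom, Polynomial.map_map]
    rfl
  rw [e, kc_Phi_map_complex, kc_Phi_map_complex]

end Phi

/-! ### a residue field of characteristic `ℓ` for `ℤ[ζ_ℓ]` -/

section residue

variable (ℓ : ℕ) [NeZero ℓ]

/-- `ℤ[ζ_ℓ] ⊆ ℂ` -/
def kc_R0 : Subring ℂ := Subring.closure {fi_zeta ℓ}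

omit [NeZero ℓ] in
theorem kc_zeta_mem_R0 : fi_zeta ℓ ∈ kc_R0 ℓ := Subring.subset_closure rfl

theorem kc_R0_isIntegral (x : ℂ) (hx : x ∈ kc_R0 ℓ) : IsIntegral ℤ x := by
  have h1 : IsIntegral ℤ (fi_zeta ℓ) :=
    (fi_zeta_isPrimitiveRoot ℓ).isIntegral (Nat.pos_of_ne_zero (NeZero.ne ℓ))
  have h2 : kc_R0 ℓ ≤ (integralClosure ℤ ℂ).toSubring := by
    rw [kc_R0, Subring.closure_le]
    rintro _ rfl
    exact h1
  exact h2 hx

theorem kc_R0_not_isUnit (hℓ : ℓ.Prime) : ¬ IsUnit ((ℓ : ℕ) : kc_R0 ℓ) := by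
  rintro ⟨u, hu⟩
  have h1 : IsIntegral ℤ (((u⁻¹ : (kc_R0 ℓ)ˣ) : kc_R0 ℓ) : ℂ) := kc_R0_isIntegral ℓ _ (Subtype.property _)
  have h2 : (((u⁻¹ : (kc_R0 ℓ)ˣ) : kc_R0 ℓ) : ℂ) = ((ℓ : ℂ))⁻¹ := by
    have h3 : ((u : kc_R0 ℓ) : ℂ) = (ℓ : ℂ) := by rw [hu]; simp
    have h4 : ((u : kc_R0 ℓ) : ℂ) * (((u⁻¹ : (kc_R0 ℓ)ˣ) : kc_R0 ℓ) : ℂ) = 1 := by
      rw [← Subring.coe_mul, Units.mul_inv]; rfl
    rw [h3] at h4
    exact eq_inv_of_mul_eq_one_right h4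
  rw [h2] at h1
  -- `1/ℓ` is rational and integral, hence an integer
  have h5 : IsIntegral ℤ (((ℓ : ℚ))⁻¹ : ℚ) := by
    have : ((ℓ : ℂ))⁻¹ = algebraMap ℚ ℂ ((ℓ : ℚ))⁻¹ := by simp
    rw [this] at h1
    exact (isIntegral_algebraMap_iff (algebraMap ℚ ℂ).injective).1 h1
  obtain ⟨n, hn⟩ := IsIntegrallyClosed.isIntegral_iff.1 h5
  have h6 : (n : ℚ) * (ℓ : ℚ) = 1 := by
    have : algebraMap ℤ ℚ n = (n : ℚ) := rfl
    rw [← this, hn]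
    exact inv_mul_cancel₀ (Nat.cast_ne_zero.mpr hℓ.ne_zero)
  have h7 : n * (ℓ : ℤ) = 1 := by exact_mod_cast h6
  have h8 : ((ℓ : ℤ)) ∣ 1 := ⟨n, by rw [mul_comm]; exact h7.symm⟩
  have h9 : (ℓ : ℤ) = 1 := by
    have := Int.eq_one_of_dvd_one (by positivity) h8
    exact this
  have : ℓ = 1 := by exact_mod_cast h9
  exact hℓ.one_lt.ne' this

/-- there is a field of characteristic `ℓ` receiving `ℤ[ζ_ℓ]` -/
theorem kc_exists_residue (hℓ : ℓ.Prime) :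
    ∃ (k : Type) (_ : Field k) (_ : CharP k ℓ), Nonempty (kc_R0 ℓ →+* k) := by
  obtain ⟨𝔪, h𝔪, hmem⟩ := exists_max_ideal_of_mem_nonunits (kc_R0_not_isUnit ℓ hℓ)
  let _ : Field (kc_R0 ℓ ⧸ 𝔪) := Ideal.Quotient.field 𝔪
  refine ⟨kc_R0 ℓ ⧸ 𝔪, inferInstance, ?_, ⟨Ideal.Quotient.mk 𝔪⟩⟩
  have h0 : ((ℓ : ℕ) : kc_R0 ℓ ⧸ 𝔪) = 0 := by
    have := Ideal.Quotient.eq_zero_iff_mem.2 hmem
    rwa [map_natCast] at this
  exact (CharP.charP_iff_prime_eq_zero hℓ).2 h0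

end residue

end Fermat.Agent.JT
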